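import Fermat.Agent.Khintchine.SecondMoment
import Mathlib.MeasureTheory.Group.AddCircle
import Mathlib.MeasureTheory.Integral.IntervalIntegral.Periodic
import Mathlib.MeasureTheory.Measure.Haar.Unique

/-!
# Independence of the events of nonparallel forms

For nonparallel `m`, `m'` the map `x ↦ (m · x, m' · x)` of the torus onto its square preserves
Haar measure, so the events `‖m · x‖ < ψ` are pairwise independent and a divergent family of them
happens infinitely often almost surely.
-/

set_option autoImplicit false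

noncomputable section

open Finset MeasureTheory Filter Metric
open scoped Topology

namespace FA.KhintchineGroshev

variable {d : ℕ}

/-- The torus. -/
abbrev Torus (d : ℕ) : Type := Fin d → UnitAddCircle

instance isProbabilityMeasure_circle : IsProbabilityMeasure (volume : Measure UnitAddCircle) :=
  ⟨UnitAddCircle.measure_univ⟩

/-- The character `x ↦ m · x`. -/
def torusForm (m : Fin d → ℤ) : Torus d →+ UnitAddCircle :=
  ∑ i, m i • Pi.evalAddMonoidHom (fun _ => UnitAddCircle) i

theorem torusForm_apply (m : Fin d → ℤ) (x : Torus d) : torusForm m x = ∑ i, m i • x i := by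
  simp [torusForm]

theorem torusForm_coe (m : Fin d → ℤ) (x : Fin d → ℝ) :
    torusForm m (fun i => (x i : UnitAddCircle)) =
      ((∑ i, (m i : ℝ) * x i : ℝ) : UnitAddCircle) := by
  rw [torusForm_apply]
  change ∑ i, m i • (QuotientAddGroup.mk' (AddSubgroup.zmultiples (1 : ℝ)) (x i)) =
    QuotientAddGroup.mk' (AddSubgroup.zmultiples (1 : ℝ)) (∑ i, (m i : ℝ) * x i)
  rw [map_sum]
  exact sum_congr rfl fun i _ => by rw [← map_zsmul, zsmul_eq_mul]

theorem continuous_torusForm (m : Fin d → ℤ) : Continuous (torusForm m) := by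
  rw [show ⇑(torusForm m) = fun x => ∑ i, m i • x i from funext (torusForm_apply m)]
  fun_prop

/-- The event `‖m · x‖ < ε`. -/
def event (m : Fin d → ℤ) (ε : ℝ) : Set (Torus d) := torusForm m ⁻¹' ball 0 ε

theorem measurableSet_event (m : Fin d → ℤ) (ε : ℝ) : MeasurableSet (event m ε) :=
  measurableSet_ball.preimage (continuous_torusForm m).measurable

theorem measureReal_ball_zero {ε : ℝ} (h0 : 0 ≤ ε) (h1 : ε ≤ 1 / 2) :
    (volume : Measure UnitAddCircle).real (ball 0 ε) = 2 * ε := by
  rw [Measure.real, ← measure_congr (AddCircle.closedBall_ae_eq_ball (x := 0) (ε := ε)),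
    AddCircle.volume_closedBall, ENNReal.toReal_ofReal', min_eq_right (by linarith),
    max_eq_left (by linarith)]

theorem measureReal_event {m : Fin d → ℤ} (hm : m ≠ 0) {ε : ℝ} (h0 : 0 ≤ ε) (h1 : ε ≤ 1 / 2) :
    (volume : Measure (Torus d)).real (event m ε) = 2 * ε := by
  obtain ⟨i, hi⟩ := Function.ne_iff.1 hm
  have hsurj : Function.Surjective (torusForm m) := fun u => by
    induction u using QuotientAddGroup.induction_on with
    | H U =>
      refine ⟨fun l => ((Pi.single i (U / m i) : Fin d → ℝ) l : UnitAddCircle), ?_⟩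
      rw [torusForm_coe, sum_eq_single i (fun l _ hl => by simp [hl]) (by simp), Pi.single_eq_same,
        mul_div_cancel₀ _ (Int.cast_ne_zero.2 hi)]
  have hmp : MeasurePreserving (torusForm m) (volume : Measure (Torus d)) volume :=
    AddMonoidHom.measurePreserving (continuous_torusForm m) hsurj (by
      rw [measure_univ, measure_univ])
  rw [Measure.real, event, hmp.measure_preimage measurableSet_ball.nullMeasurableSet,
    ← Measure.real,
    measureReal_ball_zero h0 h1]

/-- Two forms are nonparallel. -/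
def NonParallel (m m' : Fin d → ℤ) : Prop := ∃ i j, m i * m' j ≠ m j * m' i

theorem NonParallel.ne_zero {m m' : Fin d → ℤ} (h : NonParallel m m') : m ≠ 0 := by
  rintro rfl
  obtain ⟨i, j, hij⟩ := h
  simp at hij

theorem measureReal_event_inter {m m' : Fin d → ℤ} (h : NonParallel m m') {ε ε' : ℝ} (h0 : 0 ≤ ε)
    (h1 : ε ≤ 1 / 2) (h0' : 0 ≤ ε') (h1' : ε' ≤ 1 / 2) :
    (volume : Measure (Torus d)).real (event m ε ∩ event m' ε') = 2 * ε * (2 * ε') := by
  obtain ⟨i, j, hD⟩ := h
  have hij : i ≠ j := fun e => hD (by rw [e])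
  set D : ℝ := (m i : ℝ) * m' j - (m j : ℝ) * m' i with hDdef
  have hD0 : D ≠ 0 := fun e => hD (by exact_mod_cast sub_eq_zero.1 e)
  set F := (torusForm m).prod (torusForm m') with hF
  have hsurj : Function.Surjective F := by
    rintro ⟨u, v⟩
    induction u using QuotientAddGroup.induction_on with
    | H U =>
    induction v using QuotientAddGroup.induction_on with
    | H V =>
      set x : Fin d → ℝ := fun l => if l = i then (U * m' j - V * m j) / D
        else if l = j then ((m i : ℝ) * V - m' i * U) / D else 0 with hx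
      have hsum : ∀ a : Fin d → ℤ, ∑ l, (a l : ℝ) * x l =
          a i * ((U * m' j - V * m j) / D) + a j * (((m i : ℝ) * V - m' i * U) / D) := fun a => by
        rw [← sum_subset (subset_univ {i, j}) fun l _ hl => by
            simp only [mem_insert, mem_singleton, not_or] at hl
            simp [hx, hl.1, hl.2],
          sum_pair hij]
        simp [hx, hij.symm]
      refine ⟨fun l => (x l : UnitAddCircle), ?_⟩
      rw [hF, AddMonoidHom.prod_apply, torusForm_coe, torusForm_coe, hsum, hsum]
      refine Prod.ext ?_ ?_ <;> simp only <;> congr 1 <;> field_simp <;> rw [hDdef] <;> ring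
  have hc : Continuous F := by
    rw [hF]
    exact (continuous_torusForm m).prodMk (continuous_torusForm m')
  have hmp : MeasurePreserving F (volume : Measure (Torus d))
      ((volume : Measure UnitAddCircle).prod volume) :=
    AddMonoidHom.measurePreserving hc hsurj (by rw [measure_univ, measure_univ])
  have e : event m ε ∩ event m' ε' = F ⁻¹' (ball 0 ε ×ˢ ball 0 ε') := rfl
  rw [Measure.real, e, hmp.measure_preimage
    (measurableSet_ball.prod measurableSet_ball).nullMeasurableSet, ← Measure.real,
    measureReal_prod_prod, measureReal_ball_zero h0 h1, measureReal_ball_zero h0' h1']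

/-- **Borel–Cantelli for nonparallel forms.** -/
theorem ae_frequently_event {m : ℕ → Fin d → ℤ}
    (hm : ∀ a b, a ≠ b → NonParallel (m a) (m b)) {ψ : ℕ → ℝ} (h0 : ∀ a, 0 ≤ ψ a)
    (h1 : ∀ a, ψ a ≤ 1 / 2) (hdiv : ¬Summable ψ) :
    ∀ᵐ x : Torus d, ∃ᶠ a in atTop, x ∈ event (m a) (ψ a) := by
  set μ : Measure (Torus d) := volume with hμ
  set A : ℕ → Set (Torus d) := fun a => event (m a) (ψ a) with hA
  have hmeas : ∀ a, MeasurableSet (A a) := fun a => measurableSet_event _ _
  have hne : ∀ a, m a ≠ 0 := fun a => (hm a (a + 1) (by omega)).ne_zero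
  have hbound : ∀ k : ℕ, ENNReal.ofReal (1 - 1 / ((k : ℝ) + 1)) ≤ μ (limsup A atTop) := by
    intro k
    refine Khintchine.ofReal_le_measure_limsup hmeas fun n₀ => ?_
    have hdiv' : Tendsto (fun N => ∑ a ∈ range N, ψ a) atTop atTop :=
      (not_summable_iff_tendsto_nat_atTop_of_nonneg h0).1 hdiv
    obtain ⟨N, hN, hn⟩ := ((hdiv'.eventually_ge_atTop (∑ a ∈ range n₀, ψ a + (k + 1))).and
      (eventually_ge_atTop n₀)).exists
    refine ⟨Ico n₀ N, fun a ha => (mem_Ico.1 ha).1, ?_⟩
    set S := ∑ a ∈ Ico n₀ N, μ.real (A a) with hS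
    have hSk : (k : ℝ) + 1 ≤ S := by
      rw [hS, sum_congr rfl fun a _ => measureReal_event (hne a) (h0 a) (h1 a), ← mul_sum,
        sum_Ico_eq_sub _ hn]
      have := sum_nonneg fun a (_ : a ∈ range N) => h0 a
      linarith [sum_nonneg fun a (_ : a ∈ range n₀) => h0 a]
    have hS2 : ∑ a ∈ Ico n₀ N, ∑ b ∈ Ico n₀ N, μ.real (A a ∩ A b) ≤ S + S * S := by
      rw [hS, sum_mul_sum, ← sum_add_distrib]
      refine sum_le_sum fun a ha => ?_
      rw [← add_sum_erase _ _ ha, Set.inter_self]
      refine add_le_add_right (le_trans (le_of_eq (sum_congr rfl fun b hb => ?_))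
        (sum_le_sum_of_subset_of_nonneg (erase_subset a _) fun b _ _ => by positivity)) _
      rw [measureReal_event_inter (hm a b (ne_of_mem_erase hb).symm) (h0 a) (h1 a) (h0 b) (h1 b),
        measureReal_event (hne a) (h0 a) (h1 a), measureReal_event (hne b) (h0 b) (h1 b)]
    have hCE := Khintchine.sq_sum_measureReal_le (μ := μ) (Ico n₀ N) hmeas
    rw [← hS] at hCE
    set V := μ.real (⋃ a ∈ Ico n₀ N, A a) with hV
    have hSpos : 0 < S := lt_of_lt_of_le (by positivity) hSk
    have h2 : S ^ 2 ≤ V * (S + S * S) :=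
      hCE.trans (mul_le_mul_of_nonneg_left hS2 measureReal_nonneg)
    have h3 : S ≤ V * (1 + S) := by
      refine le_of_mul_le_mul_left ?_ hSpos
      linarith
    have h4 : S / (1 + S) ≤ V := (div_le_iff₀ (by linarith)).2 h3
    refine le_trans ?_ h4
    rw [show S / (1 + S) = 1 - 1 / (1 + S) by field_simp; ring]
    exact sub_le_sub_left (one_div_le_one_div_of_le (by positivity) (by linarith)) _
  have hone : μ (limsup A atTop) = 1 := by
    refine le_antisymm prob_le_one ?_
    have hlim : Tendsto (fun k : ℕ => ENNReal.ofReal (1 - 1 / ((k : ℝ) + 1))) atTop (𝓝 1) := by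
      have := (tendsto_const_nhds (x := (1 : ℝ))).sub tendsto_one_div_add_atTop_nhds_zero_nat
      simpa using ENNReal.tendsto_ofReal this
    exact le_of_tendsto' hlim hbound
  have hae : ∀ᵐ x ∂μ, x ∈ limsup A atTop :=
    (mem_ae_iff_prob_eq_one (MeasurableSet.measurableSet_limsup hmeas)).2 hone
  filter_upwards [hae] with x hx
  rwa [mem_limsup_iff_frequently_mem] at hx

/-- Almost every point of the torus gives almost every point of `ℝ ^ d`. -/
theorem ae_real_of_ae_torus {P : Torus d → Prop} (h : ∀ᵐ y : Torus d, P y) :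
    ∀ᵐ x : Fin d → ℝ, P fun i => (x i : UnitAddCircle) := by
  have h1 : ∀ n : Fin d → ℤ, ∀ᵐ x : Fin d → ℝ,
      x ∈ Set.univ.pi (fun i => Set.Ioc (n i : ℝ) (n i + 1)) →
        P fun i => (x i : UnitAddCircle) := fun n => by
    rw [← ae_restrict_iff' (MeasurableSet.univ_pi fun i => measurableSet_Ioc), volume_pi,
      Measure.restrict_pi_pi]
    exact (measurePreserving_pi _ _ fun i =>
      UnitAddCircle.measurePreserving_mk (n i : ℝ)).quasiMeasurePreserving.ae h
  filter_upwards [ae_all_iff.2 h1] with x hx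
  refine hx (fun i => ⌈x i⌉ - 1) fun i _ => ⟨?_, ?_⟩
  · push_cast
    linarith [Int.ceil_lt_add_one (x i)]
  · push_cast
    linarith [Int.le_ceil (x i)]

theorem exists_abs_lt_of_mem_event {m : Fin d → ℤ} {x : Fin d → ℝ} {ε : ℝ}
    (h : (fun i => (x i : UnitAddCircle)) ∈ event m ε) :
    ∃ n : ℤ, |∑ i, (m i : ℝ) * x i + n| < ε := by
  rw [event, Set.mem_preimage, mem_ball_zero_iff, torusForm_coe, AddCircle.norm_eq] at h
  refine ⟨-round (∑ i, (m i : ℝ) * x i), ?_⟩
  rw [Int.cast_neg, ← sub_eq_add_neg]
  simpa using h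

end FA.KhintchineGroshev
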