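import Fermat.Agent.Khintchine.Main
import Fermat.Agent.KhintchineGroshev.Independence
import Mathlib.MeasureTheory.OuterMeasure.BorelCantelli

/-!
# The theorem of Khintchine and Groshev

The primitive vectors `(q, r, …)` with `r` prime to `q` and entries in `[0, q]` are pairwise
nonparallel and number `φ q * q ^ (d - 2)` at height `q`, a positive proportion on average.
-/

set_option autoImplicit false

noncomputable section

open Finset MeasureTheory Filter
open scoped Topology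

namespace FA.KhintchineGroshev

variable {d k : ℕ}

/-- The height `max |m i|`. -/
def height (m : Fin d → ℤ) : ℕ := univ.sup fun i => (m i).natAbs

theorem height_ne_zero {m : Fin d → ℤ} (hm : m ≠ 0) : 0 < height m := by
  obtain ⟨i, hi⟩ := Function.ne_iff.1 hm
  exact (Int.natAbs_pos.2 hi).trans_le (le_sup (f := fun i => (m i).natAbs) (mem_univ i))

/-- The primitive vectors used for divergence. -/
def Primitive (k : ℕ) : Type :=
  Σ q : ℕ, ↥((range (q + 1)).filter (q + 1).Coprime) × (Fin k → Fin (q + 1))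

instance (k : ℕ) : Countable (Primitive k) := inferInstanceAs (Countable (Σ _ : ℕ, _))

instance (k : ℕ) : Infinite (Primitive k) :=
  Infinite.of_injective (fun q : ℕ => (⟨q, ⟨1 % (q + 1), mem_filter.2 ⟨mem_range.2
    (Nat.mod_lt _ q.succ_pos), by
      rcases Nat.eq_zero_or_pos q with rfl | hq
      · simp
      · rw [Nat.mod_eq_of_lt (by omega)]
        exact Nat.coprime_one_right _⟩⟩, 0⟩ : Primitive k))
    fun a b h => congrArg Sigma.fst h

/-- The vector of an index. -/
def vec (a : Primitive k) : Fin (k + 2) → ℤ :=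
  Fin.cons (((a.1 + 1 : ℕ) : ℕ) : ℤ)
    (Fin.cons (((a.2.1 : ℕ)) : ℤ) fun i => (((a.2.2 i : ℕ)) : ℤ))

theorem height_vec (a : Primitive k) : height (vec a) = a.1 + 1 := by
  refine le_antisymm (Finset.sup_le fun i _ => ?_) ?_
  · refine Fin.cases ?_ (fun i => Fin.cases ?_ (fun i => ?_) i) i
    · simp [vec]
      omega
    · simp only [vec, Fin.cons_succ, Fin.cons_zero, Int.natAbs_natCast]
      exact (mem_range.1 (mem_filter.1 a.2.1.2).1).le
    · simp only [vec, Fin.cons_succ, Int.natAbs_natCast]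
      exact (a.2.2 i).isLt.le
  · refine le_of_eq_of_le ?_ (le_sup (f := fun i => (vec a i).natAbs) (mem_univ 0))
    simp [vec]
    rfl

theorem nonParallel_vec {a b : Primitive k} (hab : a ≠ b) : NonParallel (vec a) (vec b) := by
  by_contra hpar
  simp only [NonParallel, not_exists, not_not] at hpar
  obtain ⟨q, ⟨⟨r, hr⟩, s⟩⟩ := a
  obtain ⟨q', ⟨⟨r', hr'⟩, s'⟩⟩ := b
  have h1 : (q + 1) * r' = r * (q' + 1) := by
    have := hpar 0 (Fin.succ 0)
    simp only [vec, Fin.cons_zero, Fin.cons_succ] at this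
    exact_mod_cast this
  have hcop := (mem_filter.1 hr).2
  have hcop' := (mem_filter.1 hr').2
  have hq : q = q' := by
    have d1 : q + 1 ∣ q' + 1 :=
      hcop.dvd_of_dvd_mul_left ⟨r', h1.symm⟩
    have d2 : q' + 1 ∣ q + 1 := by
      refine hcop'.dvd_of_dvd_mul_right ⟨r, ?_⟩
      linarith
    have := Nat.le_of_dvd q'.succ_pos d1
    have := Nat.le_of_dvd q.succ_pos d2
    omega
  subst hq
  have hr0 : r = r' := by nlinarith
  subst hr0
  have hs : s = s' := funext fun i => by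
    have := hpar 0 (Fin.succ i.succ)
    simp only [vec, Fin.cons_zero, Fin.cons_succ] at this
    have h2 : (q + 1) * (s' i : ℕ) = (s i : ℕ) * (q + 1) := by exact_mod_cast this
    exact Fin.ext (by nlinarith)
  subst hs
  exact hab rfl

/-- Partial summation against an antitone weight. -/
theorem mul_sum_le_of_partial {a b ψ : ℕ → ℝ} {c : ℝ} (hψ : ∀ q, 0 ≤ ψ q)
    (hmono : ∀ q, 1 ≤ q → ψ (q + 1) ≤ ψ q)
    (h : ∀ n, c * ∑ q ∈ Icc 1 n, b q ≤ ∑ q ∈ Icc 1 n, a q) (n : ℕ) :
    c * ∑ q ∈ Icc 1 n, b q * ψ q ≤ ∑ q ∈ Icc 1 n, a q * ψ q := by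
  have hA : ∀ n, 0 ≤ ∑ q ∈ Icc 1 n, (a q - c * b q) := fun n => by
    rw [sum_sub_distrib, ← mul_sum]
    linarith [h n]
  have key : ∀ n : ℕ, 1 ≤ n → ψ n * ∑ q ∈ Icc 1 n, (a q - c * b q) ≤
      ∑ q ∈ Icc 1 n, (a q - c * b q) * ψ q := by
    intro n hn
    induction n, hn using Nat.le_induction with
    | base => simp [mul_comm]
    | succ n hn ih =>
      rw [sum_Icc_succ_top (by omega), sum_Icc_succ_top (by omega), mul_add]
      linarith [mul_le_mul_of_nonneg_right (hmono n hn) (hA n)]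
  rcases Nat.eq_zero_or_pos n with rfl | hn
  · simp
  have h1 := (mul_nonneg (hψ n) (hA n)).trans (key n hn)
  simp only [sub_mul, sum_sub_distrib, mul_assoc, ← mul_sum] at h1
  linarith

theorem sum_totient_pow_ge (k n : ℕ) :
    (1 / 8 : ℝ) ^ (k + 2) * ∑ q ∈ Icc 1 n, (q : ℝ) ^ (k + 1) ≤
      ∑ q ∈ Icc 1 n, (q.totient : ℝ) * (q : ℝ) ^ k := by
  set s := (Icc 1 n).filter fun q : ℕ => (n : ℝ) / 8 < q with hs
  have hlow : (n : ℝ) / 8 ≤ ∑ q ∈ s, (q.totient : ℝ) / q := by
    have hsplit := sum_filter_add_sum_filter_not (Icc 1 n) (fun q : ℕ => (n : ℝ) / 8 < q)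
      fun q => (q.totient : ℝ) / q
    have hrest : ∑ q ∈ (Icc 1 n).filter (fun q : ℕ => ¬(n : ℝ) / 8 < q), (q.totient : ℝ) / q ≤
        (n : ℝ) / 8 := by
      refine (sum_le_card_nsmul _ _ 1 fun q hq => ?_).trans ?_
      · exact div_le_one_of_le₀ (Nat.cast_le.2 (Nat.totient_le q)) (Nat.cast_nonneg q)
      · rw [nsmul_eq_mul, mul_one]
        refine le_trans (Nat.cast_le.2 (card_le_card (t := Icc 1 ⌊(n : ℝ) / 8⌋₊) fun q hq => ?_)) ?_
        · simp only [mem_filter, mem_Icc, not_lt] at hq ⊢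
          exact ⟨hq.1.1, Nat.le_floor hq.2⟩
        · rw [Nat.card_Icc, Nat.add_sub_cancel]
          exact Nat.floor_le (by positivity)
    linarith [Khintchine.quarter_le_sum_totient_div n]
  calc (1 / 8 : ℝ) ^ (k + 2) * ∑ q ∈ Icc 1 n, (q : ℝ) ^ (k + 1)
      ≤ (1 / 8 : ℝ) ^ (k + 2) * ((n : ℝ) * (n : ℝ) ^ (k + 1)) := by
        refine mul_le_mul_of_nonneg_left ((sum_le_card_nsmul _ _ ((n : ℝ) ^ (k + 1))
          fun q hq => ?_).trans_eq ?_) (by positivity)
        · exact pow_le_pow_left₀ (Nat.cast_nonneg q) (Nat.cast_le.2 (mem_Icc.1 hq).2) _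
        · rw [Nat.card_Icc, Nat.add_sub_cancel, nsmul_eq_mul]
    _ = ((n : ℝ) / 8) ^ (k + 1) * ((n : ℝ) / 8) := by ring
    _ ≤ ((n : ℝ) / 8) ^ (k + 1) * ∑ q ∈ s, (q.totient : ℝ) / q :=
        mul_le_mul_of_nonneg_left hlow (by positivity)
    _ ≤ ∑ q ∈ s, (q.totient : ℝ) * (q : ℝ) ^ k := by
        rw [mul_sum]
        refine sum_le_sum fun q hq => ?_
        have hq0 : (0 : ℝ) < q := Nat.cast_pos.2 (mem_Icc.1 (mem_filter.1 hq).1).1
        calc ((n : ℝ) / 8) ^ (k + 1) * ((q.totient : ℝ) / q)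
            ≤ (q : ℝ) ^ (k + 1) * ((q.totient : ℝ) / q) := mul_le_mul_of_nonneg_right
              (pow_le_pow_left₀ (by positivity) (mem_filter.1 hq).2.le _) (by positivity)
          _ = _ := by field_simp; ring
    _ ≤ _ := sum_le_sum_of_subset_of_nonneg (filter_subset _ _) fun q _ _ => by positivity

theorem not_summable_primitive {ψ : ℕ → ℝ} (h0 : ∀ q, 0 ≤ ψ q)
    (hmono : ∀ q, 1 ≤ q → ψ (q + 1) ≤ ψ q)
    (hdiv : ¬Summable fun q : ℕ => (q : ℝ) ^ (k + 1) * ψ q) :
    ¬Summable fun a : Primitive k => ψ (a.1 + 1) := by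
  intro hs
  have hs' : Summable fun q : ℕ => ((q + 1).totient : ℝ) * ((q + 1 : ℕ) : ℝ) ^ k * ψ (q + 1) := by
    refine (Summable.sigma (f := fun a : (Σ q : ℕ, ↥((range (q + 1)).filter (q + 1).Coprime) ×
      (Fin k → Fin (q + 1))) => ψ (a.1 + 1)) hs).congr fun q => ?_
    dsimp only
    rw [tsum_fintype, sum_const, card_univ, Fintype.card_prod, Fintype.card_coe, Fintype.card_fun,
      Fintype.card_fin, Fintype.card_fin, ← Nat.totient_eq_card_coprime, nsmul_eq_mul,
      Nat.cast_mul, Nat.cast_pow]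
  have hs'' : Summable fun q : ℕ => (q.totient : ℝ) * (q : ℝ) ^ k * ψ q :=
    (summable_nat_add_iff 1).1 hs'
  refine hdiv (summable_of_sum_range_le (c := (((1 : ℝ) / 8) ^ (k + 2))⁻¹ *
    (∑' q : ℕ, (q.totient : ℝ) * (q : ℝ) ^ k * ψ q)) (fun q => by have := h0 q; positivity)
    fun N => ?_)
  rw [le_inv_mul_iff₀ (by positivity)]
  have h1 := mul_sum_le_of_partial (a := fun q => (q.totient : ℝ) * (q : ℝ) ^ k)
    (b := fun q => (q : ℝ) ^ (k + 1)) h0 hmono (sum_totient_pow_ge k) N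
  have h2 : ∑ q ∈ range N, (q : ℝ) ^ (k + 1) * ψ q ≤ ∑ q ∈ Icc 1 N, (q : ℝ) ^ (k + 1) * ψ q := by
    rw [range_eq_Ico]
    refine le_trans (sum_le_sum_of_subset_of_nonneg (t := insert 0 (Icc 1 N)) ?_
      fun q _ _ => by have := h0 q; positivity) ?_
    · intro q hq
      simp only [mem_Ico, mem_insert, mem_Icc] at hq ⊢
      omega
    · rw [sum_insert (by simp)]
      simp
  exact (mul_le_mul_of_nonneg_left h2 (by positivity)).trans
    (h1.trans (hs''.sum_le_tsum _ fun q _ => by have := h0 q; positivity))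

/-- **Khintchine–Groshev**, divergence. -/
theorem ae_infinite_of_divergence {ψ : ℕ → ℝ} (h0 : ∀ q, 0 ≤ ψ q)
    (hmono : ∀ q r, 1 ≤ q → q ≤ r → ψ r ≤ ψ q)
    (hdiv : ¬Summable fun q : ℕ => (q : ℝ) ^ (k + 1) * ψ q) :
    ∀ᵐ x : Fin (k + 2) → ℝ, {m : Fin (k + 2) → ℤ |
      ∃ n : ℤ, |∑ i, (m i : ℝ) * x i + n| < ψ (height m)}.Infinite := by
  set f : ℕ → ℝ := fun q => min (ψ q) (1 / 2) with hf
  have hf0 : ∀ q, 0 ≤ f q := fun q => le_min (h0 q) (by norm_num)
  have hfm : ∀ q, 1 ≤ q → f (q + 1) ≤ f q := fun q hq =>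
    min_le_min (hmono q _ hq (Nat.le_succ q)) le_rfl
  have hfd : ¬Summable fun q : ℕ => (q : ℝ) ^ (k + 1) * f q := fun hs => by
    refine hdiv (Summable.of_norm_bounded_eventually hs ?_)
    rw [Nat.cofinite_eq_atTop]
    filter_upwards [hs.tendsto_atTop_zero.eventually_lt_const (show (0 : ℝ) < 1 / 2 by norm_num),
      eventually_ge_atTop 1] with q hq hq1
    have hq1' : (1 : ℝ) ≤ (q : ℝ) ^ (k + 1) := one_le_pow₀ (Nat.one_le_cast.2 hq1)
    have hfq : f q < 1 / 2 := (le_mul_of_one_le_left (hf0 q) hq1').trans_lt hq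
    have e : f q = ψ q := min_eq_left (le_of_lt ((min_lt_iff.1 hfq).resolve_right (lt_irrefl _)))
    rw [e, Real.norm_eq_abs, abs_of_nonneg (by have := h0 q; positivity)]
  obtain ⟨e⟩ := nonempty_equiv_of_countable (α := ℕ) (β := Primitive k)
  have hnd : ¬Summable fun a : ℕ => f ((e a).1 + 1) := fun hs =>
    not_summable_primitive hf0 hfm hfd ((e.summable_iff (f := fun a : Primitive k =>
      f (a.1 + 1))).1 hs)
  have h := ae_real_of_ae_torus (ae_frequently_event (m := fun a => vec (e a))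
    (fun a b hab => nonParallel_vec fun he => hab (e.injective he)) (fun a => hf0 _)
    (fun a => min_le_right _ _) hnd)
  filter_upwards [h] with x hx
  have hinj : Function.Injective fun a : ℕ => vec (e a) := fun a b hab => by_contra fun hne => by
    obtain ⟨i, j, hij⟩ := nonParallel_vec fun he : e a = e b => hne (e.injective he)
    simp only at hab
    rw [hab] at hij
    exact hij (mul_comm _ _)
  refine Set.Infinite.mono ?_ ((Nat.frequently_atTop_iff_infinite.1 hx).image hinj.injOn)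
  rintro _ ⟨a, ha, rfl⟩
  obtain ⟨n, hn⟩ := exists_abs_lt_of_mem_event ha
  exact ⟨n, hn.trans_le (by simp only [height_vec]; exact min_le_left _ _)⟩

theorem card_height_le {d : ℕ} (hd : 0 < d) (q : ℕ) :
    {m : Fin d → ℤ | height m = q}.encard ≤ (d * (2 * (2 * q + 1) ^ (d - 1)) : ℕ) := by
  classical
  set T : Finset (Fin d → ℤ) := univ.biUnion fun i : Fin d => Fintype.piFinset
    (Function.update (fun _ => Icc (-(q : ℤ)) q) i {(q : ℤ), -(q : ℤ)}) with hT
  have hsub : {m : Fin d → ℤ | height m = q} ⊆ ↑T := by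
    intro m hm
    have : Nonempty (Fin d) := ⟨⟨0, hd⟩⟩
    obtain ⟨i, -, hi⟩ := exists_mem_eq_sup univ univ_nonempty fun i => (m i).natAbs
    rw [← height, hm] at hi
    refine mem_biUnion.2 ⟨i, mem_univ i, Fintype.mem_piFinset.2 fun j => ?_⟩
    rcases eq_or_ne j i with rfl | hne
    · rw [Function.update_self, mem_insert, mem_singleton]
      rcases Int.natAbs_eq (m j) with h | h
      · exact Or.inl (by rw [h, ← hi])
      · exact Or.inr (by rw [h, ← hi])
    · rw [Function.update_of_ne hne, mem_Icc]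
      have : (m j).natAbs ≤ q :=
        hm ▸ le_sup (f := fun i => (m i).natAbs) (mem_univ j)
      omega
  refine (Set.encard_le_encard hsub).trans ?_
  rw [Set.encard_coe_eq_coe_finsetCard, Nat.cast_le]
  refine card_biUnion_le.trans ((sum_le_card_nsmul _ _ (2 * (2 * q + 1) ^ (d - 1))
    fun i _ => ?_).trans_eq (by simp))
  rw [Fintype.card_piFinset, ← mul_prod_erase univ _ (mem_univ i), Function.update_self,
    prod_congr rfl fun j hj => by rw [Function.update_of_ne (ne_of_mem_erase hj)], prod_const,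
    card_erase_of_mem (mem_univ i), card_univ, Fintype.card_fin, Int.card_Icc]
  refine Nat.mul_le_mul card_le_two (Nat.pow_le_pow_left ?_ _)
  omega

/-- **Khintchine–Groshev**, convergence. -/
theorem ae_finite_of_convergence {ψ : ℕ → ℝ} (h0 : ∀ q, 0 ≤ ψ q)
    (hs : Summable fun q : ℕ => (q : ℝ) ^ (d - 1) * ψ q) :
    ∀ᵐ x : Fin d → ℝ, {m : Fin d → ℤ |
      m ≠ 0 ∧ ∃ n : ℤ, |∑ i, (m i : ℝ) * x i + n| < ψ (height m)}.Finite := by
  classical
  rcases Nat.eq_zero_or_pos d with hd | hd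
  · subst hd
    exact Eventually.of_forall fun x => Set.finite_univ.subset (Set.subset_univ _)
  set E : (Fin d → ℤ) → Set (Torus d) :=
    fun m => if m = 0 then ∅ else event m (ψ (height m)) with hE
  set g : ℕ → ENNReal := fun q => if q = 0 then 0 else ENNReal.ofReal (2 * ψ q) with hg
  have hμ : ∀ m, (volume : Measure (Torus d)) (E m) ≤ g (height m) := fun m => by
    rcases eq_or_ne m 0 with rfl | hm
    · simp [hE]
    simp only [hE, if_neg hm, hg, if_neg (height_ne_zero hm).ne']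
    rcases le_or_gt (ψ (height m)) (1 / 2) with h | h
    · rw [← ofReal_measureReal (measure_ne_top _ _), measureReal_event hm (h0 _) h]
    · exact prob_le_one.trans (ENNReal.one_le_ofReal.2 (by linarith))
  have hsum : ∑' m, (volume : Measure (Torus d)) (E m) ≠ ⊤ := by
    refine ne_top_of_le_ne_top ?_ (ENNReal.tsum_le_tsum hμ)
    rw [← (Equiv.sigmaFiberEquiv (height (d := d))).tsum_eq, ENNReal.tsum_sigma']
    set C : ℝ := 4 * (d : ℝ) * 3 ^ (d - 1) with hC
    refine ne_top_of_le_ne_top (b := ∑' q : ℕ, ENNReal.ofReal (C * ((q : ℝ) ^ (d - 1) * ψ q)))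
      ?_ (ENNReal.tsum_le_tsum fun q => ?_)
    · rw [← ENNReal.ofReal_tsum_of_nonneg (fun q => by have := h0 q; positivity) (hs.mul_left C)]
      exact ENNReal.ofReal_ne_top
    rcases Nat.eq_zero_or_pos q with hq | hq
    · subst hq
      refine le_of_eq_of_le (ENNReal.tsum_eq_zero.2 fun m => ?_) zero_le
      simp [hg, Equiv.sigmaFiberEquiv, m.2]
    calc ∑' m : {m : Fin d → ℤ // height m = q},
          g (height ((Equiv.sigmaFiberEquiv height) ⟨q, m⟩))
        = ∑' _m : {m : Fin d → ℤ | height m = q}, ENNReal.ofReal (2 * ψ q) :=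
          tsum_congr fun m => by simp [hg, Equiv.sigmaFiberEquiv, m.2, hq.ne']
      _ ≤ ((d * (2 * (2 * q + 1) ^ (d - 1)) : ℕ) : ENNReal) * ENNReal.ofReal (2 * ψ q) := by
          rw [ENNReal.tsum_set_const]
          refine mul_le_mul' ?_ le_rfl
          exact_mod_cast ENat.toENNReal_le.2 (card_height_le hd q)
      _ ≤ ENNReal.ofReal (C * ((q : ℝ) ^ (d - 1) * ψ q)) := by
          rw [← ENNReal.ofReal_natCast, ← ENNReal.ofReal_mul (Nat.cast_nonneg _)]
          refine ENNReal.ofReal_le_ofReal ?_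
          have h3 : ((2 * q + 1 : ℕ) : ℝ) ^ (d - 1) ≤ 3 ^ (d - 1) * (q : ℝ) ^ (d - 1) := by
            rw [← mul_pow]
            refine pow_le_pow_left₀ (Nat.cast_nonneg _) ?_ _
            push_cast
            linarith [(Nat.one_le_cast.2 hq : (1 : ℝ) ≤ q)]
          push_cast at h3 ⊢
          calc (d : ℝ) * (2 * (2 * (q : ℝ) + 1) ^ (d - 1)) * (2 * ψ q)
              ≤ (d : ℝ) * (2 * (3 ^ (d - 1) * (q : ℝ) ^ (d - 1))) * (2 * ψ q) := by
                have := h0 q
                gcongr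
            _ = _ := by rw [hC]; ring
  have hbc : ∀ᵐ x : Torus d, {m | x ∈ E m}.Finite := by
    have h := measure_limsup_cofinite_eq_zero hsum
    rw [← compl_mem_ae_iff] at h
    filter_upwards [h] with x hx
    rw [Set.mem_compl_iff, mem_limsup_iff_frequently_mem, frequently_cofinite_iff_infinite] at hx
    exact Set.not_infinite.1 hx
  filter_upwards [ae_real_of_ae_torus hbc] with x hx
  refine hx.subset ?_
  rintro m ⟨hm, n, hn⟩
  simp only [Set.mem_ofPred_eq, hE, if_neg hm, event, Set.mem_preimage, mem_ball_zero_iff,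
    torusForm_coe, AddCircle.norm_eq]
  refine lt_of_le_of_lt ?_ hn
  simpa using round_le (∑ i, (m i : ℝ) * x i) (-n)

end FA.KhintchineGroshev
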